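/-
LR / node [LIFT] (helper15): abstract Deligne–Serre lifting from a lattice.

`B` a finitely generated `ℤ`-module with operators `tB l` (`l : I`), mapped injectively and
equivariantly by `j` into a finite-dimensional complex space `W` with commuting operators `tW l`.
If `x ∈ B`, `x ∉ pB`, is an eigenvector modulo `p` with integer eigenvalues `a l`, then there is a
genuine common eigenvector `g ≠ 0` in the complex span of `j(B)` whose eigenvalues `b l` are
algebraic integers, and a maximal ideal `𝔪'` of `integralClosure ℤ ℂ` containing `p` and all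
`b l - a l`.
Prefix `lrlf_`.
-/
import Mathlib
import Fermat.Agent.S49.LinAlg

set_option autoImplicit false

namespace Fermat.Agent.LR

open MvPolynomial

open scoped IsMulCommutative

/-- A commuting family `x i` in an `R`-algebra `E` extends to a ring homomorphism from the
polynomial ring `R[X_i]`. -/
theorem lrlf_exists_rho {R : Type*} [CommRing R] {E : Type*} [Ring E] [Algebra R E] {I : Type*}
    (x : I → E) (hcomm : ∀ i j, Commute (x i) (x j)) :
    ∃ ρ : MvPolynomial I R →+* E,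
      (∀ r : R, ρ (C r) = algebraMap R E r) ∧ ∀ i, ρ (X i) = x i := by
  have hc : ∀ a ∈ Set.range x, ∀ b ∈ Set.range x, a * b = b * a := by
    rintro _ ⟨i, rfl⟩ _ ⟨j, rfl⟩
    exact (hcomm i j).eq
  have := Algebra.isMulCommutative_adjoin R hc
  let ρ₀ := eval₂Hom (S₁ := Algebra.adjoin R (Set.range x))
    (algebraMap R (Algebra.adjoin R (Set.range x)))
    (fun i => (⟨x i, Algebra.subset_adjoin ⟨i, rfl⟩⟩ : Algebra.adjoin R (Set.range x)))
  refine ⟨((Algebra.adjoin R (Set.range x)).val :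
    Algebra.adjoin R (Set.range x) →+* E).comp ρ₀, fun r => ?_, fun i => ?_⟩
  · simp [ρ₀]
  · simp [ρ₀]

/-- the congruence `ρ(t) x ≡ (eval a t) x mod p B` propagated along the polynomial ring -/
theorem lrlf_congr {I : Type*} (p : ℤ) (a : I → ℤ)
    {B : Type*} [AddCommGroup B] (tB : I → Module.End ℤ B)
    (ρB : MvPolynomial I ℤ →+* Module.End ℤ B)
    (hρC : ∀ r : ℤ, ρB (C r) = algebraMap ℤ (Module.End ℤ B) r) (hρX : ∀ i, ρB (X i) = tB i)
    (x : B) (hxeig : ∀ l, ∃ y : B, tB l x - a l • x = p • y) (t : MvPolynomial I ℤ) :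
    ∃ y : B, ρB t x - (eval a t) • x = p • y := by
  induction t using MvPolynomial.induction_on with
  | C r =>
    refine ⟨0, ?_⟩
    rw [hρC, eval_C, Module.algebraMap_end_apply, sub_self, smul_zero]
  | add t₁ t₂ ih₁ ih₂ =>
    obtain ⟨y₁, hy₁⟩ := ih₁
    obtain ⟨y₂, hy₂⟩ := ih₂
    refine ⟨y₁ + y₂, ?_⟩
    rw [map_add, map_add, LinearMap.add_apply, add_smul, smul_add, ← hy₁, ← hy₂]
    abel
  | mul_X t l ih =>
    obtain ⟨y₁, hy₁⟩ := ih
    obtain ⟨y₂, hy₂⟩ := hxeig l
    refine ⟨a l • y₁ + ρB t y₂, ?_⟩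
    have h1 : ρB (t * X l) x = ρB t (tB l x) := by
      rw [map_mul, hρX, Module.End.mul_apply]
    have h2 : tB l x = a l • x + p • y₂ := by
      rw [← hy₂]; abel
    rw [h1, h2, map_add, map_smul, map_smul, map_mul, eval_X, smul_add, smul_comm p (a l) y₁,
      ← hy₁, mul_smul, smul_sub, smul_comm (a l) (eval a t) x]
    abel

/-- **[LIFT]**: Deligne–Serre lifting from a lattice. -/
theorem lrlf_main {I : Type*} {p : ℕ} (hp : p.Prime) (a : I → ℤ)
    {B : Type*} [AddCommGroup B] [Module.Finite ℤ B] (tB : I → Module.End ℤ B)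
    {W : Type*} [AddCommGroup W] [Module ℂ W] [FiniteDimensional ℂ W]
    (tW : I → Module.End ℂ W) (hcomm : ∀ l l', Commute (tW l) (tW l'))
    (j : B →+ W) (hj : Function.Injective j) (hjt : ∀ l y, j (tB l y) = tW l (j y))
    (x : B) (hx : ∀ y : B, x ≠ (p : ℤ) • y)
    (hxeig : ∀ l, ∃ y : B, tB l x - a l • x = (p : ℤ) • y) :
    ∃ (g : W) (b : I → integralClosure ℤ ℂ) (𝔪' : Ideal (integralClosure ℤ ℂ)),
      g ∈ Submodule.span ℂ (Set.range j) ∧ g ≠ 0 ∧
      (∀ l, tW l g = ((b l : integralClosure ℤ ℂ) : ℂ) • g) ∧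
      𝔪'.IsMaximal ∧ ((p : ℕ) : integralClosure ℤ ℂ) ∈ 𝔪' ∧
      ∀ l, b l - ((a l : ℤ) : integralClosure ℤ ℂ) ∈ 𝔪' := by
  classical
  have : Fact p.Prime := ⟨hp⟩
  -- commutativity of `tB`
  have hcommB : ∀ l l', Commute (tB l) (tB l') := by
    intro l l'
    refine LinearMap.ext fun y => hj ?_
    show j ((tB l * tB l') y) = j ((tB l' * tB l) y)
    rw [Module.End.mul_apply, Module.End.mul_apply, hjt, hjt, hjt, hjt]
    exact congrArg (fun e : Module.End ℂ W => e (j y)) (hcomm l l').eq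
  obtain ⟨ρB, hρBC, hρBX⟩ := lrlf_exists_rho (R := ℤ) tB hcommB
  -- the complex span of the lattice
  set W₀ : Submodule ℂ W := Submodule.span ℂ (Set.range j) with hW₀
  have hstab : ∀ l, ∀ w ∈ W₀, tW l w ∈ W₀ := by
    intro l w hw
    induction hw using Submodule.span_induction with
    | mem w hw =>
      obtain ⟨y, rfl⟩ := hw
      rw [← hjt]
      exact Submodule.subset_span ⟨_, rfl⟩
    | zero => rw [map_zero]; exact W₀.zero_mem
    | add u v _ _ hu hv => rw [map_add]; exact W₀.add_mem hu hv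
    | smul c u _ hu => rw [map_smul]; exact W₀.smul_mem c hu
  let tW₀ : I → Module.End ℂ W₀ := fun l => (tW l).restrict (hstab l)
  have htW₀ : ∀ l (w : W₀), ((tW₀ l w : W₀) : W) = tW l (w : W) := fun l w => rfl
  have hcomm₀ : ∀ l l', Commute (tW₀ l) (tW₀ l') := by
    intro l l'
    refine LinearMap.ext fun w => Subtype.ext ?_
    show tW l (tW l' w) = tW l' (tW l w)
    exact congrArg (fun e : Module.End ℂ W => e (w : W)) (hcomm l l').eq
  obtain ⟨ρW, hρWC, hρWX⟩ := lrlf_exists_rho (R := ℤ) tW₀ hcomm₀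
  -- compatibility of the two actions
  have hcompat : ∀ (t : MvPolynomial I ℤ) (w : W₀) (y : B), j y = (w : W) →
      ((ρW t w : W₀) : W) = j (ρB t y) := by
    intro t
    induction t using MvPolynomial.induction_on with
    | C r =>
      intro w y h
      rw [hρWC, hρBC, Module.algebraMap_end_apply, Module.algebraMap_end_apply, map_zsmul, h]
      rfl
    | add t₁ t₂ ih₁ ih₂ =>
      intro w y h
      rw [map_add, map_add, LinearMap.add_apply, LinearMap.add_apply, map_add, Submodule.coe_add,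
        ih₁ w y h, ih₂ w y h]
    | mul_X t l ih =>
      intro w y h
      rw [map_mul, map_mul, hρWX, hρBX, Module.End.mul_apply, Module.End.mul_apply]
      exact ih (tW₀ l w) (tB l y) (by rw [hjt, h, htW₀])
  -- the maximal ideal
  set 𝔪a : Ideal (MvPolynomial I ℤ) := Ideal.comap (eval a) (Ideal.span {(p : ℤ)}) with h𝔪a
  have hevalsurj : Function.Surjective (eval a : MvPolynomial I ℤ →+* ℤ) := fun n =>
    ⟨C n, eval_C n⟩
  have h𝔪amax : 𝔪a.IsMaximal := Ideal.comap_isMaximal_of_surjective _ hevalsurj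
  have hmem : ∀ t : MvPolynomial I ℤ, t ∈ 𝔪a ↔ (p : ℤ) ∣ eval a t := by
    intro t
    rw [h𝔪a, Ideal.mem_comap, Ideal.mem_span_singleton]
  -- annihilator of the vector
  let x₀ : W₀ := ⟨j x, Submodule.subset_span ⟨x, rfl⟩⟩
  have hann : ∀ t, ρW t x₀ = 0 → t ∈ 𝔪a := by
    intro t ht
    have h1 : j (ρB t x) = 0 := by
      rw [← hcompat t x₀ x rfl, ht]
      rfl
    have h2 : ρB t x = 0 := hj (by rw [h1, map_zero])
    obtain ⟨y, hy⟩ := lrlf_congr (p : ℤ) a tB ρB hρBC hρBX x hxeig t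
    rw [h2, zero_sub] at hy
    rw [hmem]
    by_contra hnd
    have hcop : IsCoprime (eval a t) (p : ℤ) :=
      ((Nat.prime_iff_prime_int.mp hp).coprime_iff_not_dvd.mpr hnd).symm
    obtain ⟨u, v, huv⟩ := hcop
    apply hx (v • x - u • y)
    have h4 : (eval a t) • x = -((p : ℤ) • y) := by rw [← hy, neg_neg]
    calc x = (u * eval a t + v * (p : ℤ)) • x := by rw [huv, one_smul]
      _ = u • (eval a t • x) + v • ((p : ℤ) • x) := by rw [add_smul, mul_smul, mul_smul]
      _ = (p : ℤ) • (v • x - u • y) := by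
          rw [h4, smul_neg, smul_sub, smul_comm v (p : ℤ) x, smul_comm u (p : ℤ) y]
          abel
  obtain ⟨g₀, hg₀, χ, hχ, hker⟩ := Fermat.Agent.S49.exists_eigenvector_ringHom_ker_le ρW 𝔪a
    h𝔪amax.isPrime x₀ hann
  -- if `ρB s = 0` then `ρW s = 0`
  have hzero : ∀ s, ρB s = 0 → ρW s = 0 := by
    intro s hs
    refine LinearMap.ext_on (Submodule.span_span_coe_preimage (R := ℂ) (s := Set.range j)) ?_
    intro w hw
    obtain ⟨y, hy⟩ := hw
    refine Subtype.ext ?_
    rw [hcompat s w y hy, hs, LinearMap.zero_apply, LinearMap.zero_apply, map_zero]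
    rfl
  -- integrality of the eigenvalues
  have hint : ∀ t, χ t ∈ integralClosure ℤ ℂ := by
    intro t
    obtain ⟨P, hPmonic, hP⟩ := Algebra.IsIntegral.isIntegral (R := ℤ) (ρB t)
    refine ⟨P, hPmonic, ?_⟩
    have h1 : ρB (Polynomial.eval₂ (algebraMap ℤ (MvPolynomial I ℤ)) t P) = 0 := by
      rw [Polynomial.hom_eval₂, ← hP]
      congr 1
      exact Subsingleton.elim _ _
    have h2 := hzero _ h1
    have h3 : χ (Polynomial.eval₂ (algebraMap ℤ (MvPolynomial I ℤ)) t P) • g₀ = 0 := by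
      rw [← hχ, h2, LinearMap.zero_apply]
    have h4 := (smul_eq_zero.mp h3).resolve_right hg₀
    rw [Polynomial.hom_eval₂] at h4
    rw [← h4]
    congr 1
    exact Subsingleton.elim _ _
  let χ' : MvPolynomial I ℤ →+* integralClosure ℤ ℂ := χ.codRestrict (integralClosure ℤ ℂ) hint
  have hχ' : ∀ t, ((χ' t : integralClosure ℤ ℂ) : ℂ) = χ t := fun t => rfl
  let _ : Algebra (MvPolynomial I ℤ) (integralClosure ℤ ℂ) := χ'.toAlgebra
  have hintalg : Algebra.IsIntegral (MvPolynomial I ℤ) (integralClosure ℤ ℂ) :=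
    ⟨fun z => (Algebra.IsIntegral.isIntegral (R := ℤ) z).tower_top⟩
  have hker' : RingHom.ker (algebraMap (MvPolynomial I ℤ) (integralClosure ℤ ℂ)) ≤ 𝔪a := by
    intro t ht
    apply hker
    rw [RingHom.mem_ker] at ht ⊢
    have : χ' t = 0 := ht
    rw [← hχ', this]
    rfl
  obtain ⟨Q, hQmax, hQ⟩ := Ideal.exists_ideal_over_maximal_of_isIntegral 𝔪a hker'
  have hQmem : ∀ t, t ∈ 𝔪a → χ' t ∈ Q := by
    intro t ht
    rw [← hQ] at ht
    exact ht
  refine ⟨(g₀ : W), fun l => χ' (X l), Q, g₀.2, fun h => hg₀ (Subtype.ext h), fun l => ?_, hQmax,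
    ?_, fun l => ?_⟩
  · rw [hχ', ← htW₀, ← hρWX, hχ]
    rfl
  · have h1 : (C (p : ℤ) : MvPolynomial I ℤ) ∈ 𝔪a := by
      rw [hmem, eval_C]
    have h2 := hQmem _ h1
    have h3 : χ' (C (p : ℤ)) = ((p : ℕ) : integralClosure ℤ ℂ) := by
      rw [show (C (p : ℤ) : MvPolynomial I ℤ) = ((p : ℕ) : MvPolynomial I ℤ) by simp, map_natCast]
    rwa [h3] at h2
  · have h1 : (X l - C (a l) : MvPolynomial I ℤ) ∈ 𝔪a := by
      rw [hmem, map_sub, eval_X, eval_C, sub_self]
      exact dvd_zero _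
    have h2 := hQmem _ h1
    have h3 : χ' (X l - C (a l)) = χ' (X l) - ((a l : ℤ) : integralClosure ℤ ℂ) := by
      rw [map_sub, show (C (a l) : MvPolynomial I ℤ) = ((a l : ℤ) : MvPolynomial I ℤ) by simp,
        map_intCast]
    rwa [h3] at h2

end Fermat.Agent.LR
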