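/-
LR / node [RIB] (helper15): Ribet's lattice argument, abstract form, without localisation.

`L'`, `P` abelian groups (`L' = Hom(H(Nq'), ℤ)`, `P = Hom(H(N), ℤ)²`) with reductions modulo `p`
`r' : L' → V'`, `r : P → VP` onto `𝔽_p`-spaces, operators `t_l` (`l : I`) on all four, `φ : L' → P`
(`= i†` over `ℤ`) with reduction `φbar`, `ψbar : VP → V'` (`= i` modulo `p`); integers `a l`.
Hypotheses: (DUAL) a perfect pairing `β` on `VP` for which the `t_l` are self-adjoint, a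
left-nondegenerate pairing `β'` on `V'`, `β'(ψbar u, z) = β(u, φbar z)`; (IHARA) `ψbar` is injective on
`a`-eigenvectors; (LR) some `a`-eigenvector `u ≠ 0` has `φbar (ψbar u) = 0`.
Conclusion: some `x ∈ ker φ` has nonzero reduction, an `a`-eigenvector modulo `p`.
Prefix `lrrb_`.
-/
import Mathlib
import Fermat.Agent.LR.Rib.Lift

set_option autoImplicit false

namespace Fermat.Agent.LR

open MvPolynomial

/-- **Nakayama step.**  `P` a finitely generated abelian group with commuting operators `tP l`,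
`N₀` a stable subgroup, `w ∉ N₀` with `p w ∈ N₀` and `(tP l - a l) w ∈ N₀` for all `l`.  Then
`N₀ + p P + ∑ (tP l - a l) P` is a proper subgroup of `P`. -/
theorem lrrb_nakayama {I : Type*} (p : ℤ) (a : I → ℤ)
    {P : Type*} [AddCommGroup P] [Module.Finite ℤ P] (tP : I → P →+ P)
    (hcommP : ∀ l l' w, tP l (tP l' w) = tP l' (tP l w))
    (N₀ : AddSubgroup P) (hN₀ : ∀ l y, y ∈ N₀ → tP l y ∈ N₀)
    (w : P) (hw : w ∉ N₀) (hpw : p • w ∈ N₀) (htw : ∀ l, tP l w - a l • w ∈ N₀) :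
    ∃ Q : AddSubgroup P, N₀ ≤ Q ∧ (∀ y : P, p • y ∈ Q) ∧ (∀ l (y : P), tP l y - a l • y ∈ Q) ∧
      ∃ w₀ : P, w₀ ∉ Q := by
  classical
  let tE : I → Module.End ℤ P := fun l => (tP l).toIntLinearMap
  have htE : ∀ l y, tE l y = tP l y := fun l y => rfl
  have hcommE : ∀ l l', Commute (tE l) (tE l') := by
    intro l l'
    refine LinearMap.ext fun y => ?_
    show tP l (tP l' y) = tP l' (tP l y)
    exact hcommP l l' y
  obtain ⟨ρ, hρC, hρX⟩ := lrlf_exists_rho (R := ℤ) tE hcommE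
  let _ : Module (MvPolynomial I ℤ) P := Module.compHom P ρ
  have hsmul : ∀ (t : MvPolynomial I ℤ) (y : P), t • y = ρ t y := fun t y => rfl
  have hsmulC : ∀ (n : ℤ) (y : P), (C n : MvPolynomial I ℤ) • y = n • y := by
    intro n y
    rw [hsmul, hρC, Module.algebraMap_end_apply]
  have hsmulX : ∀ (l : I) (y : P), (X l : MvPolynomial I ℤ) • y = tP l y := by
    intro l y
    rw [hsmul, hρX, htE]
  -- `N₀` as a submodule
  have hN₀smul : ∀ (t : MvPolynomial I ℤ), ∀ y ∈ N₀, t • y ∈ N₀ := by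
    intro t
    induction t using MvPolynomial.induction_on with
    | C n =>
      intro y hy
      rw [hsmulC]
      exact N₀.zsmul_mem hy n
    | add t₁ t₂ ih₁ ih₂ =>
      intro y hy
      rw [add_smul]
      exact N₀.add_mem (ih₁ y hy) (ih₂ y hy)
    | mul_X t l ih =>
      intro y hy
      rw [mul_smul, hsmulX]
      exact ih _ (hN₀ l y hy)
  let N : Submodule (MvPolynomial I ℤ) P :=
    { carrier := N₀
      add_mem' := N₀.add_mem
      zero_mem' := N₀.zero_mem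
      smul_mem' := fun t y hy => hN₀smul t y hy }
  have hmemN : ∀ y, y ∈ N ↔ y ∈ N₀ := fun y => Iff.rfl
  -- the ideal
  set 𝔪 : Ideal (MvPolynomial I ℤ) :=
    Ideal.span (insert (C p) (Set.range fun l => X l - C (a l))) with h𝔪
  have hCp : (C p : MvPolynomial I ℤ) ∈ 𝔪 := Ideal.subset_span (Set.mem_insert _ _)
  have hXl : ∀ l, (X l - C (a l) : MvPolynomial I ℤ) ∈ 𝔪 := fun l =>
    Ideal.subset_span (Set.mem_insert_of_mem _ ⟨l, rfl⟩)
  have hclaimA : ∀ t ∈ 𝔪, t • w ∈ N := by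
    intro t ht
    induction ht using Submodule.span_induction with
    | mem t ht =>
      rcases ht with rfl | ⟨l, rfl⟩
      · rw [hsmulC]; exact hpw
      · rw [sub_smul, hsmulX, hsmulC]; exact htw l
    | zero => rw [zero_smul]; exact N.zero_mem
    | add s t _ _ hs ht => rw [add_smul]; exact N.add_mem hs ht
    | smul s t _ ht => rw [smul_eq_mul, mul_smul]; exact N.smul_mem s ht
  -- finite generation over the polynomial ring
  have hfg : (⊤ : Submodule (MvPolynomial I ℤ) P).FG := by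
    obtain ⟨s, hs⟩ := (Module.Finite.fg_top (R := ℤ) (M := P))
    have key : ∀ y : P, y ∈ Submodule.span ℤ (s : Set P) →
        y ∈ Submodule.span (MvPolynomial I ℤ) (s : Set P) := by
      intro y hy
      induction hy using Submodule.span_induction with
      | mem y hy => exact Submodule.subset_span hy
      | zero => exact Submodule.zero_mem _
      | add u v _ _ hu hv => exact Submodule.add_mem _ hu hv
      | smul n u _ hu => exact zsmul_mem hu n
    exact ⟨s, eq_top_iff.mpr fun y _ => key y (hs ▸ Submodule.mem_top)⟩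
  -- Nakayama
  have hQ : ¬ ((⊤ : Submodule (MvPolynomial I ℤ) P) ≤ N ⊔ 𝔪 • ⊤) := by
    intro h
    obtain ⟨s, hs1, hsP⟩ :=
      Submodule.exists_sub_one_mem_and_smul_le_of_fg_of_le_sup (I := 𝔪) (N := N) (N' := ⊤)
        (P := ⊤) hfg le_rfl h
    have h1 : s • w ∈ N := hsP (Submodule.smul_mem_pointwise_smul w s ⊤ Submodule.mem_top)
    have h2 : (s - 1) • w ∈ N := hclaimA _ hs1
    apply hw
    rw [← hmemN]
    have h3 : w = s • w - (s - 1) • w := by rw [sub_smul, one_smul]; abel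
    rw [h3]
    exact N.sub_mem h1 h2
  obtain ⟨w₀, -, hw₀⟩ := Set.not_subset.mp hQ
  refine ⟨(N ⊔ 𝔪 • ⊤ : Submodule (MvPolynomial I ℤ) P).toAddSubgroup, ?_, ?_, ?_, w₀, hw₀⟩
  · intro y hy
    exact (le_sup_left : N ≤ N ⊔ 𝔪 • ⊤) hy
  · intro y
    rw [← hsmulC]
    exact (le_sup_right : 𝔪 • ⊤ ≤ N ⊔ 𝔪 • ⊤) (Submodule.smul_mem_smul hCp Submodule.mem_top)
  · intro l y
    have h1 : tP l y - a l • y = (X l - C (a l) : MvPolynomial I ℤ) • y := by
      rw [sub_smul, hsmulX, hsmulC]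
    rw [h1]
    exact (le_sup_right : 𝔪 • ⊤ ≤ N ⊔ 𝔪 • ⊤) (Submodule.smul_mem_smul (hXl l) Submodule.mem_top)

/-- **Duality step.**  `Q` a proper subgroup of `P` containing `p P`; `β` a pairing on the
reduction `VP = P / p` representing every functional.  Then some `u ≠ 0` is `β`-orthogonal to the
image of `Q`. -/
theorem lrrb_dual_vec {p : ℕ} [Fact p.Prime]
    {P : Type*} [AddCommGroup P] {VP : Type*} [AddCommGroup VP] [Module (ZMod p) VP]
    (r : P →+ VP) (hrker : ∀ w, r w = 0 → ∃ y, w = (p : ℤ) • y)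
    (β : VP →ₗ[ZMod p] VP →ₗ[ZMod p] ZMod p)
    (hβsurj : ∀ f : VP →ₗ[ZMod p] ZMod p, ∃ u, ∀ w, f w = β u w)
    (Q : AddSubgroup P) (hpQ : ∀ y : P, (p : ℤ) • y ∈ Q) (w₀ : P) (hw₀ : w₀ ∉ Q) :
    ∃ u : VP, u ≠ 0 ∧ ∀ w ∈ Q, β u (r w) = 0 := by
  classical
  have hrz : ∀ (n : ℤ) (w : P), r (n • w) = ((n : ℤ) : ZMod p) • r w := by
    intro n w
    rw [map_zsmul, Int.cast_smul_eq_zsmul]
  let S : Submodule (ZMod p) VP :=
    { carrier := r '' (Q : Set P)
      add_mem' := by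
        rintro _ _ ⟨x, hx, rfl⟩ ⟨y, hy, rfl⟩
        exact ⟨x + y, Q.add_mem hx hy, map_add r x y⟩
      zero_mem' := ⟨0, Q.zero_mem, map_zero r⟩
      smul_mem' := by
        rintro c _ ⟨x, hx, rfl⟩
        obtain ⟨n, rfl⟩ := ZMod.intCast_surjective c
        exact ⟨n • x, Q.zsmul_mem hx n, hrz n x⟩ }
  have hS : S ≠ ⊤ := by
    intro h
    have h1 : r w₀ ∈ S := h ▸ Submodule.mem_top
    obtain ⟨w₁, hw₁, h2⟩ := h1
    obtain ⟨y, hy⟩ := hrker (w₀ - w₁) (by rw [map_sub, h2, sub_self])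
    apply hw₀
    have h3 : w₀ = w₁ + (p : ℤ) • y := by rw [← hy]; abel
    rw [h3]
    exact Q.add_mem hw₁ (hpQ y)
  obtain ⟨f, hf0, hSf⟩ := Submodule.exists_le_ker_of_lt_top S (lt_top_iff_ne_top.mpr hS)
  obtain ⟨u', hu'⟩ := hβsurj f
  refine ⟨u', ?_, ?_⟩
  · intro h
    apply hf0
    refine LinearMap.ext fun v => ?_
    rw [hu', h, map_zero, LinearMap.zero_apply]
  · intro w hw
    rw [← hu']
    exact hSf ⟨w, hw, rfl⟩

/-- **Duality step, eigenvector part.**  If moreover the `t_l` are `β`-self-adjoint, `β` is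
left-nondegenerate and `Q` contains all `(t_l - a_l) P`, the vector is an `a`-eigenvector. -/
theorem lrrb_dual_eigen {I : Type*} {p : ℕ} [Fact p.Prime] (a : I → ℤ)
    {P : Type*} [AddCommGroup P] {VP : Type*} [AddCommGroup VP] [Module (ZMod p) VP]
    (r : P →+ VP) (hrsurj : Function.Surjective r)
    (tP : I → P →+ P) (tV : I → VP →ₗ[ZMod p] VP) (hrt : ∀ l w, r (tP l w) = tV l (r w))
    (β : VP →ₗ[ZMod p] VP →ₗ[ZMod p] ZMod p)
    (hβnd : ∀ u, (∀ w, β u w = 0) → u = 0)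
    (hβt : ∀ l u w, β (tV l u) w = β u (tV l w))
    (Q : AddSubgroup P) (htQ : ∀ l (y : P), tP l y - a l • y ∈ Q)
    (u : VP) (hu : ∀ w ∈ Q, β u (r w) = 0) (l : I) :
    tV l u = ((a l : ℤ) : ZMod p) • u := by
  have hrz : ∀ (n : ℤ) (w : P), r (n • w) = ((n : ℤ) : ZMod p) • r w := by
    intro n w
    rw [map_zsmul, Int.cast_smul_eq_zsmul]
  apply sub_eq_zero.mp
  apply hβnd
  intro w'
  obtain ⟨w'', rfl⟩ := hrsurj w'
  rw [map_sub, LinearMap.sub_apply, hβt, map_smul, LinearMap.smul_apply, ← map_smul, ← map_sub]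
  have h1 := hu _ (htQ l w'')
  rwa [map_sub, hrt, hrz] at h1

/-- A left-nondegenerate pairing on a finite-dimensional space represents every functional. -/
theorem lrrb_surj_of_nondeg {K : Type*} [Field K] {V : Type*} [AddCommGroup V] [Module K V]
    [FiniteDimensional K V] (β : V →ₗ[K] V →ₗ[K] K) (hβnd : ∀ u, (∀ w, β u w = 0) → u = 0)
    (f : V →ₗ[K] K) : ∃ u, ∀ w, f w = β u w := by
  have hinj : Function.Injective β := by
    rw [injective_iff_map_eq_zero]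
    intro u hu
    exact hβnd u fun w => by rw [hu, LinearMap.zero_apply]
  have hsurj : Function.Surjective β :=
    (LinearMap.injective_iff_surjective_of_finrank_eq_finrank
      (Subspace.dual_finrank_eq (K := K) (V := V)).symm).mp hinj
  obtain ⟨u, hu⟩ := hsurj f
  exact ⟨u, fun w => by rw [hu]⟩

/-- The level-raising vector: if `M (x, y) = (c x + τ y, τ x + c y)` and `τ v = ε c v` with
`ε² = 1`, then `M (v, -ε v) = 0`. -/
theorem lrrb_hLR_prod {K : Type*} [Field K] {V : Type*} [AddCommGroup V] [Module K V]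
    (τ : V →ₗ[K] V) (c ε : K) (hε : ε * ε = 1) (v : V) (hτ : τ v = (ε * c) • v) :
    (c • v + τ (-(ε • v)), τ v + c • (-(ε • v))) = ((0 : V), (0 : V)) := by
  have h1 : c • v + τ (-(ε • v)) = 0 := by
    rw [map_neg, map_smul, hτ, smul_smul, ← mul_assoc, hε, one_mul, add_neg_cancel]
  have h2 : τ v + c • (-(ε • v)) = 0 := by
    rw [hτ, smul_neg, smul_smul, mul_comm c ε, add_neg_cancel]
  rw [h1, h2]

/-- **[RIB]**: Ribet's lattice argument, abstract form. -/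
theorem lrrb_main {I : Type*} {p : ℕ} [Fact p.Prime] (a : I → ℤ)
    {L' P : Type*} [AddCommGroup L'] [AddCommGroup P] [Module.Finite ℤ P]
    (hPtf : ∀ w : P, (p : ℤ) • w = 0 → w = 0)
    {V' VP : Type*} [AddCommGroup V'] [Module (ZMod p) V'] [AddCommGroup VP] [Module (ZMod p) VP]
    (r' : L' →+ V') (hr'surj : Function.Surjective r')
    (hr'ker : ∀ x, r' x = 0 → ∃ y, x = (p : ℤ) • y)
    (r : P →+ VP) (hrsurj : Function.Surjective r) (hrker : ∀ w, r w = 0 → ∃ y, w = (p : ℤ) • y)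
    (tL : I → L' →+ L') (tP : I → P →+ P)
    (tV' : I → V' →ₗ[ZMod p] V') (tV : I → VP →ₗ[ZMod p] VP)
    (hcommP : ∀ l l' w, tP l (tP l' w) = tP l' (tP l w))
    (hr't : ∀ l x, r' (tL l x) = tV' l (r' x)) (hrt : ∀ l w, r (tP l w) = tV l (r w))
    (φ : L' →+ P) (hφt : ∀ l x, φ (tL l x) = tP l (φ x))
    (φbar : V' →ₗ[ZMod p] VP) (hφbar : ∀ x, φbar (r' x) = r (φ x))
    (ψbar : VP →ₗ[ZMod p] V') (hψt : ∀ l u, ψbar (tV l u) = tV' l (ψbar u))
    (β : VP →ₗ[ZMod p] VP →ₗ[ZMod p] ZMod p)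
    (hβsurj : ∀ f : VP →ₗ[ZMod p] ZMod p, ∃ u, ∀ w, f w = β u w)
    (hβnd : ∀ u, (∀ w, β u w = 0) → u = 0)
    (hβt : ∀ l u w, β (tV l u) w = β u (tV l w))
    (β' : V' →ₗ[ZMod p] V' →ₗ[ZMod p] ZMod p) (hβ'nd : ∀ y, (∀ z, β' y z = 0) → y = 0)
    (hadj : ∀ u z, β' (ψbar u) z = β u (φbar z))
    (hIh : ∀ u : VP, (∀ l, tV l u = ((a l : ℤ) : ZMod p) • u) → ψbar u = 0 → u = 0)
    (hLR : ∃ u : VP, u ≠ 0 ∧ (∀ l, tV l u = ((a l : ℤ) : ZMod p) • u) ∧ φbar (ψbar u) = 0) :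
    ∃ x : L', φ x = 0 ∧ r' x ≠ 0 ∧ ∀ l, tV' l (r' x) = ((a l : ℤ) : ZMod p) • r' x := by
  classical
  have hpV' : ∀ v : V', (p : ℤ) • v = 0 := by
    intro v
    rw [← Int.cast_smul_eq_zsmul (ZMod p), Int.cast_natCast, ZMod.natCast_self, zero_smul]
  have hpV : ∀ v : VP, (p : ℤ) • v = 0 := by
    intro v
    rw [← Int.cast_smul_eq_zsmul (ZMod p), Int.cast_natCast, ZMod.natCast_self, zero_smul]
  have hr'z : ∀ (n : ℤ) (x : L'), r' (n • x) = ((n : ℤ) : ZMod p) • r' x := by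
    intro n x
    rw [map_zsmul, Int.cast_smul_eq_zsmul]
  have hrz : ∀ (n : ℤ) (w : P), r (n • w) = ((n : ℤ) : ZMod p) • r w := by
    intro n w
    rw [map_zsmul, Int.cast_smul_eq_zsmul]
  obtain ⟨u, hu0, hueig, huφ⟩ := hLR
  set z : V' := ψbar u with hz
  have hz0 : z ≠ 0 := fun h => hu0 (hIh u hueig h)
  have hzeig : ∀ l, tV' l z = ((a l : ℤ) : ZMod p) • z := by
    intro l
    rw [hz, ← hψt, hueig l, map_smul]
  obtain ⟨zt, hzt⟩ := hr'surj z
  obtain ⟨w, hw⟩ : ∃ w, φ zt = (p : ℤ) • w := by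
    apply hrker
    rw [← hφbar, hzt, huφ]
  have hyl : ∀ l, ∃ y, tL l zt - a l • zt = (p : ℤ) • y := by
    intro l
    apply hr'ker
    rw [map_sub, hr't, hr'z, hzt, hzeig l, sub_self]
  choose yl hyl using hyl
  have htw : ∀ l, tP l w - a l • w = φ (yl l) := by
    intro l
    have h1 : (p : ℤ) • (tP l w - a l • w - φ (yl l)) = 0 := by
      rw [smul_sub, smul_sub, ← map_zsmul (tP l), ← hw, smul_comm, ← hw, ← hφt, ← map_zsmul φ,
        ← map_sub, ← map_zsmul φ, ← map_sub, hyl l, sub_self, map_zero]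
    exact sub_eq_zero.mp (hPtf _ h1)
  by_cases hwφ : ∃ y, w = φ y
  · obtain ⟨y, hy⟩ := hwφ
    refine ⟨zt - (p : ℤ) • y, ?_, ?_, ?_⟩
    · rw [map_sub, map_zsmul, hw, hy, sub_self]
    · rw [map_sub, map_zsmul, hpV', sub_zero, hzt]
      exact hz0
    · intro l
      rw [map_sub, map_zsmul, hpV', sub_zero, hzt]
      exact hzeig l
  · exfalso
    obtain ⟨Q, hNQ, hpQ, htQ, w₀, hw₀⟩ := lrrb_nakayama (p : ℤ) a tP hcommP φ.range
      (by
        rintro l _ ⟨x, rfl⟩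
        exact ⟨tL l x, hφt l x⟩) w
      (by
        rintro ⟨y, hy⟩
        exact hwφ ⟨y, hy.symm⟩)
      ⟨zt, hw⟩ (fun l => ⟨yl l, (htw l).symm⟩)
    obtain ⟨u', hu'0, hu'Q⟩ := lrrb_dual_vec r hrker β hβsurj Q hpQ w₀ hw₀
    apply hu'0
    apply hIh u'
    · exact lrrb_dual_eigen a r hrsurj tP tV hrt β hβnd hβt Q htQ u' hu'Q
    · apply hβ'nd
      intro z'
      obtain ⟨x', rfl⟩ := hr'surj z'
      rw [hadj, hφbar]
      exact hu'Q _ (hNQ ⟨x', rfl⟩)

end Fermat.Agent.LR
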