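/-
LR / node [RED] (helper15): reduction of a characteristic-zero eigen-system to an eigenvector
modulo `p` in a lattice (the easy converse of the Deligne–Serre lifting lemma).

`Λ` a finitely generated `ℤ`-module with operators `tΛ i` (`i : I`), mapped injectively and
equivariantly by `j` into a complex space `W` with commuting operators `tW i`; `g ≠ 0` in the complex
span of `j(Λ)` a common eigenvector with eigenvalues `b i` (algebraic integers); `𝔪` a proper ideal
of `integralClosure ℤ ℂ` containing `p` and all `b i - a i` (`a i` integers).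
* `lrrd_coeigen` : `p Λ + ∑ (tΛ i - a i) Λ` is a proper subgroup of `Λ`.
* `lrrd_main` : with a perfect self-adjoint pairing on the reduction `V = Λ / p`, there is
  `v ≠ 0` in `V` with `t_i v = a_i v` for all `i`.
Prefix `lrrd_`.
-/
import Mathlib
import Fermat.Agent.LR.Rib.Core

set_option autoImplicit false

namespace Fermat.Agent.LR

open MvPolynomial

/-- **[RED]**, co-eigenvector form. -/
theorem lrrd_coeigen {I : Type*} {p : ℕ} (a : I → ℤ)
    {Λ : Type*} [AddCommGroup Λ] [Module.Finite ℤ Λ] (tΛ : I → Λ →+ Λ)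
    {W : Type*} [AddCommGroup W] [Module ℂ W]
    (tW : I → Module.End ℂ W) (hcomm : ∀ l l', Commute (tW l) (tW l'))
    (j : Λ →+ W) (hj : Function.Injective j) (hjt : ∀ l y, j (tΛ l y) = tW l (j y))
    (g : W) (hg0 : g ≠ 0) (hgspan : g ∈ Submodule.span ℂ (Set.range j))
    (b : I → integralClosure ℤ ℂ) (hgb : ∀ l, tW l g = ((b l : integralClosure ℤ ℂ) : ℂ) • g)
    (𝔪 : Ideal (integralClosure ℤ ℂ)) (h𝔪 : 𝔪 ≠ ⊤) (hp𝔪 : ((p : ℕ) : integralClosure ℤ ℂ) ∈ 𝔪)
    (hb : ∀ l, b l - ((a l : ℤ) : integralClosure ℤ ℂ) ∈ 𝔪) :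
    ∃ Q : AddSubgroup Λ, (∀ y : Λ, (p : ℤ) • y ∈ Q) ∧ (∀ l (y : Λ), tΛ l y - a l • y ∈ Q) ∧
      ∃ w₀ : Λ, w₀ ∉ Q := by
  classical
  let tE : I → Module.End ℤ Λ := fun l => (tΛ l).toIntLinearMap
  have htE : ∀ l y, tE l y = tΛ l y := fun l y => rfl
  have hcommE : ∀ l l', Commute (tE l) (tE l') := by
    intro l l'
    refine LinearMap.ext fun y => hj ?_
    show j (tΛ l (tΛ l' y)) = j (tΛ l' (tΛ l y))
    rw [hjt, hjt, hjt, hjt]
    exact congrArg (fun e : Module.End ℂ W => e (j y)) (hcomm l l').eq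
  obtain ⟨ρ, hρC, hρX⟩ := lrlf_exists_rho (R := ℤ) tE hcommE
  obtain ⟨ρW, hρWC, hρWX⟩ := lrlf_exists_rho (R := ℤ) tW hcomm
  -- compatibility
  have hcompat : ∀ (t : MvPolynomial I ℤ) (y : Λ), ρW t (j y) = j (ρ t y) := by
    intro t
    induction t using MvPolynomial.induction_on with
    | C n =>
      intro y
      rw [hρWC, hρC, Module.algebraMap_end_apply, Module.algebraMap_end_apply, map_zsmul]
    | add t₁ t₂ ih₁ ih₂ =>
      intro y
      rw [map_add, map_add, LinearMap.add_apply, LinearMap.add_apply, map_add, ih₁, ih₂]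
    | mul_X t l ih =>
      intro y
      rw [map_mul, map_mul, hρWX, hρX, Module.End.mul_apply, Module.End.mul_apply, htE, ← hjt, ih]
  -- the eigencharacter
  let χ : MvPolynomial I ℤ →+* integralClosure ℤ ℂ := eval₂Hom (Int.castRingHom _) b
  have hχ : ∀ t : MvPolynomial I ℤ, ρW t g = ((χ t : integralClosure ℤ ℂ) : ℂ) • g := by
    intro t
    induction t using MvPolynomial.induction_on with
    | C n =>
      rw [hρWC, Module.algebraMap_end_apply]
      have : χ (C n) = ((n : ℤ) : integralClosure ℤ ℂ) := by simp [χ]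
      rw [this]
      simp [Int.cast_smul_eq_zsmul]
    | add t₁ t₂ ih₁ ih₂ =>
      rw [map_add, map_add, LinearMap.add_apply, ih₁, ih₂, ← add_smul]
      simp
    | mul_X t l ih =>
      have h1 : χ (t * X l) = χ t * b l := by simp [χ]
      rw [map_mul, hρWX, Module.End.mul_apply, hgb, map_smul, ih, smul_smul, h1]
      congr 1
      simp [mul_comm]
  let _ : Module (MvPolynomial I ℤ) Λ := Module.compHom Λ ρ
  have hsmul : ∀ (t : MvPolynomial I ℤ) (y : Λ), t • y = ρ t y := fun t y => rfl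
  have hsmulC : ∀ (n : ℤ) (y : Λ), (C n : MvPolynomial I ℤ) • y = n • y := by
    intro n y
    rw [hsmul, hρC, Module.algebraMap_end_apply]
  have hsmulX : ∀ (l : I) (y : Λ), (X l : MvPolynomial I ℤ) • y = tΛ l y := by
    intro l y
    rw [hsmul, hρX, htE]
  set 𝔪T : Ideal (MvPolynomial I ℤ) :=
    Ideal.span (insert (C (p : ℤ)) (Set.range fun l => X l - C (a l))) with h𝔪T
  have hCp : (C (p : ℤ) : MvPolynomial I ℤ) ∈ 𝔪T := Ideal.subset_span (Set.mem_insert _ _)
  have hXl : ∀ l, (X l - C (a l) : MvPolynomial I ℤ) ∈ 𝔪T := fun l =>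
    Ideal.subset_span (Set.mem_insert_of_mem _ ⟨l, rfl⟩)
  have hχ𝔪 : ∀ t ∈ 𝔪T, χ t ∈ 𝔪 := by
    intro t ht
    induction ht using Submodule.span_induction with
    | mem t ht =>
      rcases ht with rfl | ⟨l, rfl⟩
      · have : χ (C (p : ℤ)) = ((p : ℕ) : integralClosure ℤ ℂ) := by
          show eval₂ (Int.castRingHom _) b (C (p : ℤ)) = _
          rw [eval₂_C, eq_intCast, Int.cast_natCast]
        rw [this]; exact hp𝔪
      · have : χ (X l - C (a l)) = b l - ((a l : ℤ) : integralClosure ℤ ℂ) := by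
          show eval₂ (Int.castRingHom _) b (X l - C (a l)) = _
          rw [eval₂_sub, eval₂_X, eval₂_C, eq_intCast]
        rw [this]; exact hb l
    | zero => rw [map_zero]; exact 𝔪.zero_mem
    | add s t _ _ hs ht => rw [map_add]; exact 𝔪.add_mem hs ht
    | smul s t _ ht => rw [smul_eq_mul, map_mul]; exact 𝔪.mul_mem_left _ ht
  have hfg : (⊤ : Submodule (MvPolynomial I ℤ) Λ).FG := by
    obtain ⟨s, hs⟩ := (Module.Finite.fg_top (R := ℤ) (M := Λ))
    have key : ∀ y : Λ, y ∈ Submodule.span ℤ (s : Set Λ) →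
        y ∈ Submodule.span (MvPolynomial I ℤ) (s : Set Λ) := by
      intro y hy
      induction hy using Submodule.span_induction with
      | mem y hy => exact Submodule.subset_span hy
      | zero => exact Submodule.zero_mem _
      | add u v _ _ hu hv => exact Submodule.add_mem _ hu hv
      | smul n u _ hu => exact zsmul_mem hu n
    exact ⟨s, eq_top_iff.mpr fun y _ => key y (hs ▸ Submodule.mem_top)⟩
  have hQ : ¬ ((⊤ : Submodule (MvPolynomial I ℤ) Λ) ≤ 𝔪T • ⊤) := by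
    intro h
    obtain ⟨s, hs1, hs0⟩ :=
      Submodule.exists_sub_one_mem_and_smul_eq_zero_of_fg_of_le_smul 𝔪T ⊤ hfg h
    have h1 : ∀ y : Λ, ρW s (j y) = 0 := by
      intro y
      rw [hcompat, ← hsmul, hs0 y Submodule.mem_top, map_zero]
    have key : ∀ w ∈ Submodule.span ℂ (Set.range j), ρW s w = 0 := by
      intro w hw
      induction hw using Submodule.span_induction with
      | mem w hw => obtain ⟨y, rfl⟩ := hw; exact h1 y
      | zero => exact map_zero _
      | add u v _ _ hu hv => rw [map_add, hu, hv, add_zero]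
      | smul c u _ hu => rw [map_smul, hu, smul_zero]
    have h2 : ρW s g = 0 := key g hgspan
    rw [hχ] at h2
    have h3 : ((χ s : integralClosure ℤ ℂ) : ℂ) = 0 := (smul_eq_zero.mp h2).resolve_right hg0
    have h4 : χ s = 0 := Subtype.ext h3
    apply h𝔪
    rw [Ideal.eq_top_iff_one]
    have h5 := hχ𝔪 _ hs1
    rw [map_sub, h4, map_one, zero_sub] at h5
    exact (neg_mem_iff (x := (1 : integralClosure ℤ ℂ))).mp h5
  obtain ⟨w₀, -, hw₀⟩ := Set.not_subset.mp hQ
  refine ⟨(𝔪T • ⊤ : Submodule (MvPolynomial I ℤ) Λ).toAddSubgroup, ?_, ?_, w₀, hw₀⟩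
  · intro y
    rw [← hsmulC]
    exact Submodule.smul_mem_smul hCp Submodule.mem_top
  · intro l y
    have h1 : tΛ l y - a l • y = (X l - C (a l) : MvPolynomial I ℤ) • y := by
      rw [sub_smul, hsmulX, hsmulC]
    rw [h1]
    exact Submodule.smul_mem_smul (hXl l) Submodule.mem_top

/-- **[RED]**, eigenvector form: with a perfect self-adjoint pairing on the reduction `V = Λ / p`
there is a nonzero `a`-eigenvector in `V`. -/
theorem lrrd_main {I : Type*} {p : ℕ} [Fact p.Prime] (a : I → ℤ)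
    {Λ : Type*} [AddCommGroup Λ] [Module.Finite ℤ Λ] (tΛ : I → Λ →+ Λ)
    {W : Type*} [AddCommGroup W] [Module ℂ W]
    (tW : I → Module.End ℂ W) (hcomm : ∀ l l', Commute (tW l) (tW l'))
    (j : Λ →+ W) (hj : Function.Injective j) (hjt : ∀ l y, j (tΛ l y) = tW l (j y))
    (g : W) (hg0 : g ≠ 0) (hgspan : g ∈ Submodule.span ℂ (Set.range j))
    (b : I → integralClosure ℤ ℂ) (hgb : ∀ l, tW l g = ((b l : integralClosure ℤ ℂ) : ℂ) • g)
    (𝔪 : Ideal (integralClosure ℤ ℂ)) (h𝔪 : 𝔪 ≠ ⊤) (hp𝔪 : ((p : ℕ) : integralClosure ℤ ℂ) ∈ 𝔪)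
    (hb : ∀ l, b l - ((a l : ℤ) : integralClosure ℤ ℂ) ∈ 𝔪)
    {V : Type*} [AddCommGroup V] [Module (ZMod p) V]
    (r : Λ →+ V) (hrsurj : Function.Surjective r) (hrker : ∀ w, r w = 0 → ∃ y, w = (p : ℤ) • y)
    (tV : I → V →ₗ[ZMod p] V) (hrt : ∀ l w, r (tΛ l w) = tV l (r w))
    (β : V →ₗ[ZMod p] V →ₗ[ZMod p] ZMod p)
    (hβsurj : ∀ f : V →ₗ[ZMod p] ZMod p, ∃ u, ∀ w, f w = β u w)
    (hβnd : ∀ u, (∀ w, β u w = 0) → u = 0)
    (hβt : ∀ l u w, β (tV l u) w = β u (tV l w)) :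
    ∃ v : V, v ≠ 0 ∧ ∀ l, tV l v = ((a l : ℤ) : ZMod p) • v := by
  obtain ⟨Q, hpQ, htQ, w₀, hw₀⟩ :=
    lrrd_coeigen (p := p) a tΛ tW hcomm j hj hjt g hg0 hgspan b hgb 𝔪 h𝔪 hp𝔪 hb
  obtain ⟨u, hu0, huQ⟩ := lrrb_dual_vec r hrker β hβsurj Q hpQ w₀ hw₀
  exact ⟨u, hu0, lrrb_dual_eigen a r hrsurj tΛ tV hrt β hβnd hβt Q htQ u huQ⟩

end Fermat.Agent.LR
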