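/-
LR / node [RED], pairing-free variant (helper15).

* `lrrd2_joint_kernel` : a commuting family `n i` of endomorphisms of a finite-dimensional vector
  space `V` with `∑ n_i V ≠ V` has a nonzero joint-kernel vector (no duality, no localisation:
  induction on the dimension through `ker n_{i₀}` / `im n_{i₀}`).
* `lrrd2_main` : `lrrd_main` WITHOUT any pairing: a characteristic-zero eigen-system congruent to
  the integers `a i` modulo a proper ideal containing `p` gives a nonzero `a`-eigenvector in the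
  reduction `V = Λ / p`.
Prefix `lrrd2_`.
-/
import Mathlib
import Fermat.Agent.LR.Rib.Red

set_option autoImplicit false

namespace Fermat.Agent.LR

open Module

/-- Auxiliary form of `lrrd2_joint_kernel`, for stable subspaces, by strong induction on the
dimension. -/
theorem lrrd2_joint_kernel_aux {K : Type*} [Field K] {V : Type*} [AddCommGroup V] [Module K V]
    {I : Type*} (n : I → Module.End K V) (hcomm : ∀ i j, Commute (n i) (n j)) :
    ∀ (d : ℕ) (U : Submodule K V), FiniteDimensional K U → finrank K U = d →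
      (∀ i, ∀ u ∈ U, n i u ∈ U) → (⨆ i, U.map (n i)) ≠ U →
      ∃ v ∈ U, v ≠ 0 ∧ ∀ i, n i v = 0 := by
  intro d
  induction d using Nat.strong_induction_on with
  | _ d ih =>
    intro U hfd hd hstab hne
    have hle : (⨆ i, U.map (n i)) ≤ U := by
      refine iSup_le fun i => ?_
      rintro _ ⟨u, hu, rfl⟩
      exact hstab i u hu
    by_cases hall : ∀ i, ∀ u ∈ U, n i u = 0
    · -- all operators vanish on `U`; `U ≠ 0` since otherwise the supremum equals `U`
      have hU : U ≠ ⊥ := by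
        rintro rfl
        apply hne
        exact le_antisymm hle bot_le
      obtain ⟨v, hvU, hv0⟩ := (Submodule.ne_bot_iff U).mp hU
      exact ⟨v, hvU, hv0, fun i => hall i v hvU⟩
    · push Not at hall
      obtain ⟨i₀, u₀, hu₀U, hu₀⟩ := hall
      -- the two stable subspaces
      set Kr : Submodule K V := U ⊓ LinearMap.ker (n i₀) with hKr
      set R : Submodule K V := U.map (n i₀) with hR
      have hKrle : Kr ≤ U := inf_le_left
      have hRle : R ≤ U := by
        rintro _ ⟨u, hu, rfl⟩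
        exact hstab i₀ u hu
      have hKrstab : ∀ i, ∀ u ∈ Kr, n i u ∈ Kr := by
        intro i u hu
        obtain ⟨h1, h2⟩ := Submodule.mem_inf.mp hu
        refine Submodule.mem_inf.mpr ⟨hstab i u h1, ?_⟩
        rw [LinearMap.mem_ker] at h2 ⊢
        have hc : n i₀ (n i u) = n i (n i₀ u) :=
          congrArg (fun e : Module.End K V => e u) (hcomm i₀ i).eq
        rw [hc, h2, map_zero]
      have hRstab : ∀ i, ∀ u ∈ R, n i u ∈ R := by
        rintro i _ ⟨u, hu, rfl⟩
        refine ⟨n i u, hstab i u hu, ?_⟩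
        exact congrArg (fun e : Module.End K V => e u) (hcomm i₀ i).eq
      have hKrlt : Kr < U := by
        refine lt_of_le_of_ne hKrle fun h => hu₀ ?_
        have : u₀ ∈ Kr := h ▸ hu₀U
        exact LinearMap.mem_ker.mp (Submodule.mem_inf.mp this).2
      have hfdKr : FiniteDimensional K Kr := Submodule.finiteDimensional_of_le hKrle
      have hfdR : FiniteDimensional K R := Submodule.finiteDimensional_of_le hRle
      by_cases hK : (⨆ i, Kr.map (n i)) ≠ Kr
      · obtain ⟨v, hv, hv0, hvn⟩ := ih (finrank K Kr)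
          (hd ▸ Submodule.finrank_lt_finrank_of_lt hKrlt) Kr hfdKr rfl hKrstab hK
        exact ⟨v, hKrle hv, hv0, hvn⟩
      · push Not at hK
        -- then `R ≠ ∑ n_i R`
        have hRne : (⨆ i, R.map (n i)) ≠ R := by
          intro hReq
          apply hne
          refine le_antisymm hle ?_
          intro u hu
          -- `n i₀ u ∈ R = ∑ n_i R = n i₀ (∑ n_i U)`
          have h1 : n i₀ u ∈ ⨆ i, R.map (n i) := by
            rw [hReq]
            exact ⟨u, hu, rfl⟩
          have h2 : (⨆ i, R.map (n i)) ≤ (⨆ i, U.map (n i)).map (n i₀) := by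
            refine iSup_le fun i => ?_
            rintro _ ⟨_, ⟨w, hw, rfl⟩, rfl⟩
            refine ⟨n i w, Submodule.mem_iSup_of_mem i ⟨w, hw, rfl⟩, ?_⟩
            exact congrArg (fun e : Module.End K V => e w) (hcomm i₀ i).eq
          obtain ⟨s, hs, hsu⟩ := h2 h1
          -- `u - s ∈ Kr = ∑ n_i Kr ≤ ∑ n_i U`
          have h3 : u - s ∈ Kr := by
            refine Submodule.mem_inf.mpr ⟨U.sub_mem hu (hle hs), ?_⟩
            rw [LinearMap.mem_ker, map_sub, hsu, sub_self]
          have h4 : Kr ≤ ⨆ i, U.map (n i) := by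
            rw [← hK]
            exact iSup_mono fun i => Submodule.map_mono hKrle
          have h5 : u = (u - s) + s := by abel
          rw [h5]
          exact Submodule.add_mem _ (h4 h3) hs
        have hRlt : R < U := by
          refine lt_of_le_of_ne hRle fun h => hne ?_
          have h6 : R ≤ ⨆ i, U.map (n i) := le_iSup (fun i => U.map (n i)) i₀
          exact le_antisymm hle (le_of_eq_of_le h.symm h6)
        obtain ⟨v, hv, hv0, hvn⟩ := ih (finrank K R)
          (hd ▸ Submodule.finrank_lt_finrank_of_lt hRlt) R hfdR rfl hRstab hRne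
        exact ⟨v, hRle hv, hv0, hvn⟩

/-- A commuting family `n i` of endomorphisms of a finite-dimensional space with
`∑ n_i V ≠ V` has a nonzero joint-kernel vector. -/
theorem lrrd2_joint_kernel {K : Type*} [Field K] {V : Type*} [AddCommGroup V] [Module K V]
    [FiniteDimensional K V] {I : Type*} (n : I → Module.End K V)
    (hcomm : ∀ i j, Commute (n i) (n j))
    (hne : (⨆ i, LinearMap.range (n i)) ≠ ⊤) :
    ∃ v : V, v ≠ 0 ∧ ∀ i, n i v = 0 := by
  obtain ⟨v, -, hv0, hv⟩ := lrrd2_joint_kernel_aux n hcomm _ ⊤ inferInstance rfl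
    (fun _ _ _ => Submodule.mem_top) (by simpa [Submodule.map_top] using hne)
  exact ⟨v, hv0, hv⟩

/-- From a proper subgroup `Q ⊇ p Λ + ∑ (t_l - a_l) Λ` to a nonzero `a`-eigenvector of the reduction
`V = Λ / p` (finite-dimensional), without any pairing. -/
theorem lrrd2_eigen_of_proper {I : Type*} {p : ℕ} [Fact p.Prime] (a : I → ℤ)
    {Λ : Type*} [AddCommGroup Λ] (tΛ : I → Λ →+ Λ)
    (hcommΛ : ∀ l l' w, tΛ l (tΛ l' w) = tΛ l' (tΛ l w))
    {V : Type*} [AddCommGroup V] [Module (ZMod p) V] [FiniteDimensional (ZMod p) V]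
    (r : Λ →+ V) (hrsurj : Function.Surjective r) (hrker : ∀ w, r w = 0 → ∃ y, w = (p : ℤ) • y)
    (tV : I → V →ₗ[ZMod p] V) (hrt : ∀ l w, r (tΛ l w) = tV l (r w))
    (Q : AddSubgroup Λ) (hpQ : ∀ y : Λ, (p : ℤ) • y ∈ Q) (htQ : ∀ l (y : Λ), tΛ l y - a l • y ∈ Q)
    (w₀ : Λ) (hw₀ : w₀ ∉ Q) :
    ∃ v : V, v ≠ 0 ∧ ∀ l, tV l v = ((a l : ℤ) : ZMod p) • v := by
  classical
  have hrz : ∀ (n : ℤ) (w : Λ), r (n • w) = ((n : ℤ) : ZMod p) • r w := by
    intro n w
    rw [map_zsmul, Int.cast_smul_eq_zsmul]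
  have hcommV : ∀ l l', Commute (tV l) (tV l') := by
    intro l l'
    refine LinearMap.ext fun v => ?_
    obtain ⟨w, rfl⟩ := hrsurj v
    show tV l (tV l' (r w)) = tV l' (tV l (r w))
    rw [← hrt, ← hrt, ← hrt, ← hrt, hcommΛ]
  let n : I → Module.End (ZMod p) V := fun l =>
    tV l - algebraMap (ZMod p) (Module.End (ZMod p) V) ((a l : ℤ) : ZMod p)
  have hn : ∀ l v, n l v = tV l v - ((a l : ℤ) : ZMod p) • v := by
    intro l v
    simp only [n, LinearMap.sub_apply, Module.algebraMap_end_apply]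
  have hcomm : ∀ l l', Commute (n l) (n l') := by
    intro l l'
    have h1 : Commute (tV l) (tV l') := hcommV l l'
    have h2 : Commute (algebraMap (ZMod p) (Module.End (ZMod p) V) ((a l : ℤ) : ZMod p)) (tV l') :=
      Algebra.commute_algebraMap_left _ _
    have h3 : Commute (tV l) (algebraMap (ZMod p) (Module.End (ZMod p) V) ((a l' : ℤ) : ZMod p)) :=
      Algebra.commute_algebraMap_right _ _
    have h4 : Commute (algebraMap (ZMod p) (Module.End (ZMod p) V) ((a l : ℤ) : ZMod p))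
        (algebraMap (ZMod p) (Module.End (ZMod p) V) ((a l' : ℤ) : ZMod p)) :=
      Algebra.commute_algebraMap_left _ _
    exact (h1.sub_left h2).sub_right (h3.sub_left h4)
  let S : Submodule (ZMod p) V :=
    { carrier := r '' (Q : Set Λ)
      add_mem' := by
        rintro _ _ ⟨x, hx, rfl⟩ ⟨y, hy, rfl⟩
        exact ⟨x + y, Q.add_mem hx hy, map_add r x y⟩
      zero_mem' := ⟨0, Q.zero_mem, map_zero r⟩
      smul_mem' := by
        rintro c _ ⟨x, hx, rfl⟩
        obtain ⟨m, rfl⟩ := ZMod.intCast_surjective c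
        exact ⟨m • x, Q.zsmul_mem hx m, hrz m x⟩ }
  have hS : r w₀ ∉ S := by
    rintro ⟨w₁, hw₁, h2⟩
    obtain ⟨y, hy⟩ := hrker (w₀ - w₁) (by rw [map_sub, h2, sub_self])
    apply hw₀
    have h3 : w₀ = w₁ + (p : ℤ) • y := by rw [← hy]; abel
    rw [h3]
    exact Q.add_mem hw₁ (hpQ y)
  have hle : (⨆ l, LinearMap.range (n l)) ≤ S := by
    refine iSup_le fun l => ?_
    rintro _ ⟨v, rfl⟩
    obtain ⟨w, rfl⟩ := hrsurj v
    refine ⟨tΛ l w - a l • w, htQ l w, ?_⟩
    rw [hn, map_sub, hrt, hrz]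
  have hne : (⨆ l, LinearMap.range (n l)) ≠ ⊤ := by
    intro h
    exact hS (hle (h ▸ Submodule.mem_top))
  obtain ⟨v, hv0, hv⟩ := lrrd2_joint_kernel n hcomm hne
  refine ⟨v, hv0, fun l => ?_⟩
  have := hv l
  rw [hn] at this
  exact sub_eq_zero.mp this

/-- **[RED]**, eigenvector form WITHOUT a pairing. -/
theorem lrrd2_main {I : Type*} {p : ℕ} [Fact p.Prime] (a : I → ℤ)
    {Λ : Type*} [AddCommGroup Λ] [Module.Finite ℤ Λ] (tΛ : I → Λ →+ Λ)
    {W : Type*} [AddCommGroup W] [Module ℂ W]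
    (tW : I → Module.End ℂ W) (hcomm : ∀ l l', Commute (tW l) (tW l'))
    (j : Λ →+ W) (hj : Function.Injective j) (hjt : ∀ l y, j (tΛ l y) = tW l (j y))
    (g : W) (hg0 : g ≠ 0) (hgspan : g ∈ Submodule.span ℂ (Set.range j))
    (b : I → integralClosure ℤ ℂ) (hgb : ∀ l, tW l g = ((b l : integralClosure ℤ ℂ) : ℂ) • g)
    (𝔪 : Ideal (integralClosure ℤ ℂ)) (h𝔪 : 𝔪 ≠ ⊤) (hp𝔪 : ((p : ℕ) : integralClosure ℤ ℂ) ∈ 𝔪)
    (hb : ∀ l, b l - ((a l : ℤ) : integralClosure ℤ ℂ) ∈ 𝔪)
    {V : Type*} [AddCommGroup V] [Module (ZMod p) V] [FiniteDimensional (ZMod p) V]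
    (r : Λ →+ V) (hrsurj : Function.Surjective r) (hrker : ∀ w, r w = 0 → ∃ y, w = (p : ℤ) • y)
    (tV : I → V →ₗ[ZMod p] V) (hrt : ∀ l w, r (tΛ l w) = tV l (r w)) :
    ∃ v : V, v ≠ 0 ∧ ∀ l, tV l v = ((a l : ℤ) : ZMod p) • v := by
  obtain ⟨Q, hpQ, htQ, w₀, hw₀⟩ :=
    lrrd_coeigen (p := p) a tΛ tW hcomm j hj hjt g hg0 hgspan b hgb 𝔪 h𝔪 hp𝔪 hb
  have hcommΛ : ∀ l l' w, tΛ l (tΛ l' w) = tΛ l' (tΛ l w) := by
    intro l l' w
    apply hj
    rw [hjt, hjt, hjt, hjt]
    exact congrArg (fun e : Module.End ℂ W => e (j w)) (hcomm l l').eq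
  exact lrrd2_eigen_of_proper a tΛ hcommΛ r hrsurj hrker tV hrt Q hpQ htQ w₀ hw₀

end Fermat.Agent.LR
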